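import Mathlib
import Fermat.Agent.LT.T2.H724.CommSpec

/-!
# Row LT, tower T2, leaf T2.02d.4 `ConvSwapC724` (SWAP): PROVED (helper473)

OFF-MAIN.  Registry row 1080.  Spec: `Fermat/Agent/LT/T2/H724/CommSpec.lean`
(helper724@7fd05bef9, sha256 78972da3), byte-identical copy; nothing of it is re-defined.

* `isInvInvariant_of_rightInv473`: in a locally compact second countable group a Haar measure
  which is right invariant is invariant under inversion (`μ.inv = c • μ` by uniqueness, `c² = 1`
  because inversion is an involution).  General group, Mathlib only.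
* `isInvInvariant_G473`: the same for `G K` from `T1.LocCompC` and `T1.UnimodC`.
* `convSwapC473 : ConvSwapC724 K`: two changes of variables, `h ↦ ι h` (hypothesis) and
  `h ↦ ι g / h` (`integral_div_left_eq_self`).  No integrability is needed.
-/

set_option autoImplicit false

open IsDedekindDomain NumberField MeasureTheory AutomorphicForm
open Fermat.Agent.LT.H556.A0

noncomputable section

namespace Fermat.Agent.LT.T2.H473

open Fermat.Agent.LT.T2 Fermat.Agent.LT.T2.H724

/-- A right invariant Haar measure of a locally compact second countable group is invariant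
under inversion. -/
theorem isInvInvariant_of_rightInv473 {G : Type*} [Group G] [TopologicalSpace G]
    [IsTopologicalGroup G] [MeasurableSpace G] [BorelSpace G] [LocallyCompactSpace G]
    [SecondCountableTopology G] (μ : Measure G) [μ.IsHaarMeasure] [μ.IsMulRightInvariant] :
    μ.IsInvInvariant := by
  constructor
  let c : NNReal := Measure.haarScalarFactor μ.inv μ
  have hc : μ.inv = c • μ := Measure.isMulLeftInvariant_eq_smul μ.inv μ
  have h2 : Measure.map Inv.inv (Measure.map Inv.inv μ) = c ^ 2 • μ := by
    rw [← Measure.inv_def μ, hc, Measure.map_smul, ← Measure.inv_def μ, hc, smul_smul, pow_two]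
  have μeq : μ = c ^ 2 • μ := by
    rw [Measure.map_map continuous_inv.measurable continuous_inv.measurable] at h2
    simpa only [inv_involutive, Function.Involutive.comp_self, Measure.map_id] using h2
  have K : TopologicalSpace.PositiveCompacts G := Classical.arbitrary _
  have h3 : ((c ^ 2 : NNReal) : ENNReal) * μ K = 1 * μ K := by
    conv_rhs => rw [μeq]
    simp
  have h4 : ((c ^ 2 : NNReal) : ENNReal) = 1 :=
    (ENNReal.mul_left_inj (Measure.measure_pos_of_nonempty_interior _ K.interior_nonempty).ne'
      K.isCompact.measure_lt_top.ne).1 h3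
  have h5 : c ^ 2 = 1 := by exact_mod_cast h4
  have h6 : c = 1 := (pow_eq_one_iff_of_nonneg (show (0 : NNReal) ≤ c from c.2) two_ne_zero).1 h5
  rw [hc, h6, one_smul]

variable {K : Type} [Field K] [NumberField K]

attribute [local instance] Fermat.Agent.LT.T2.borelG

/-- Haar measures of `G K` are invariant under inversion (`T1.LocCompC`, `T1.UnimodC`). -/
theorem isInvInvariant_G473 (hLC : T1.LocCompC K) (hU : T1.UnimodC K) (μ : Measure (G K))
    (hμ : μ.IsHaarMeasure) : μ.IsInvInvariant := by
  have : BorelSpace (G K) := ⟨rfl⟩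
  have : LocallyCompactSpace (G K) := hLC.2.1
  have : SecondCountableTopology (G K) := hLC.2.2.2
  have : μ.IsMulRightInvariant := hU μ hμ
  exact isInvInvariant_of_rightInv473 μ

/-- **T2.02d.4 SWAP** (registry row 1080). -/
theorem convSwapC473 : ConvSwapC724 K := by
  intro hLC hU F hι f₁ f₂ g
  have : BorelSpace (G K) := ⟨rfl⟩
  have : LocallyCompactSpace (G K) := hLC.2.1
  have : SecondCountableTopology (G K) := hLC.2.2.2
  have : F.μ.IsHaarMeasure := F.haar
  have : F.μ.IsInvInvariant := isInvInvariant_G473 hLC hU F.μ F.haar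
  -- `ι` as a measurable equivalence
  let e : G K ≃ᵐ G K :=
    { toFun := adjG724
      invFun := adjG724
      left_inv := adjG724_adjG724
      right_inv := adjG724_adjG724
      measurable_toFun := hι.measurable
      measurable_invFun := hι.measurable }
  have he : MeasurePreserving e F.μ F.μ := hι
  unfold convKer724
  -- right hand side: `h ↦ ι h`
  have hR : ∫ h, f₂ (adjG724 h) * f₁ (adjG724 (h⁻¹ * g)) ∂F.μ
      = ∫ h, f₂ h * f₁ (adjG724 g / h) ∂F.μ := by
    have := he.integral_comp' (fun h => f₂ h * f₁ (adjG724 g / h))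
    rw [← this]
    refine integral_congr_ae (Filter.Eventually.of_forall fun h => ?_)
    show f₂ (adjG724 h) * f₁ (adjG724 (h⁻¹ * g)) = f₂ (adjG724 h) * f₁ (adjG724 g / adjG724 h)
    rw [adjG724_mul, adjG724_inv, div_eq_mul_inv]
  -- left hand side: `h ↦ ι g / h`
  have hL : ∫ h, f₁ h * f₂ (h⁻¹ * adjG724 g) ∂F.μ
      = ∫ h, f₂ h * f₁ (adjG724 g / h) ∂F.μ := by
    rw [← integral_div_left_eq_self (fun h => f₁ h * f₂ (h⁻¹ * adjG724 g)) F.μ (adjG724 g)]
    refine integral_congr_ae (Filter.Eventually.of_forall fun h => ?_)
    show f₁ (adjG724 g / h) * f₂ ((adjG724 g / h)⁻¹ * adjG724 g) = f₂ h * f₁ (adjG724 g / h)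
    rw [inv_div, div_mul_cancel, mul_comm]
  rw [hL, hR]

end Fermat.Agent.LT.T2.H473
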